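import Fermat.Agent.MW.Hgt
import Fermat.Agent.S17.GF.NorthcottQ
import Fermat.Agent.S17.GF.Coeff

/-!
# MW / NOR 1: Northcott for Galois stable multisets of algebraic numbers (abstract; no curves).

`m` a multiset of `≤ d` elements of `ℚ̄`, stable under `G_ℚ`, with `∑_{x ∈ m} ∑_v log max(1, |x|_v) ≤ B`: finitely many.
`P_m = ∏_{x ∈ m} (T - x)` has rational coefficients `c_k`, `|c_k|_v ≤ 2^d ∏ max(1,|x|_v)` (no `2^d` if `v` is nonarchimedean;
`S17.GF.Coeff_step`, `Coeff_step_nonarch`), so `∑_v log max(1,|c_k|_v) ≤ d log 2 + B`; `S17.GF.finite_rat_ht_le`; `m = roots P_m`.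
-/

set_option autoImplicit false

noncomputable section

namespace Fermat.Agent.MW

open Polynomial

/-- `h(x) = ∑_v log max(1, |x|_v)` with respect to the chosen absolute values (NOT Galois invariant). -/
def hOne (A : AbsFam) (x : Qb) : ℝ := ∑ᶠ v, Real.log (max 1 (A.abv v x))

theorem finite_support_hOne (A : AbsFam) (x : Qb) :
    (Function.support fun v => Real.log (max 1 (A.abv v x))).Finite := by
  by_cases hx : x = 0
  · subst hx
    have : (fun v => Real.log (max 1 (A.abv v (0 : Qb)))) = fun _ => 0 := by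
      funext v
      simp
    rw [this]
    simp
  · refine (A.fin x hx).subset ?_
    intro v hv hcon
    apply hv
    show Real.log (max 1 (A.abv v x)) = 0
    rw [hcon, max_self, Real.log_one]

theorem hOne_nonneg (A : AbsFam) (x : Qb) : 0 ≤ hOne A x :=
  finsum_nonneg fun _ => Real.log_nonneg (le_max_left _ _)

/-- The polynomial of a multiset. -/
def msPoly (m : Multiset Qb) : Qb[X] := (m.map fun x => X - C x).prod

theorem roots_msPoly (m : Multiset Qb) : (msPoly m).roots = m :=
  Polynomial.roots_multiset_prod_X_sub_C m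

theorem natDegree_msPoly (m : Multiset Qb) : (msPoly m).natDegree = Multiset.card m :=
  Polynomial.natDegree_multiset_prod_X_sub_C_eq_card m

theorem Nor_msPoly_zero : msPoly 0 = 1 := by
  simp [msPoly]

theorem Nor_msPoly_cons (a : Qb) (m : Multiset Qb) : msPoly (a ::ₘ m) = (X - C a) * msPoly m := by
  simp [msPoly]

theorem Nor_abv_coeff_one_le (w : AbsoluteValue Qb ℝ) (k : ℕ) :
    w ((1 : Qb[X]).coeff k) ≤ 1 := by
  rw [coeff_one]
  split_ifs
  · simp
  · simp

/-- Local bound for the coefficients (induction on `m`). -/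
theorem abv_coeff_msPoly_le (w : AbsoluteValue Qb ℝ) (m : Multiset Qb) (k : ℕ) :
    w ((msPoly m).coeff k) ≤ 2 ^ Multiset.card m * (m.map fun x => max 1 (w x)).prod := by
  induction m using Multiset.induction_on generalizing k with
  | empty =>
    rw [Nor_msPoly_zero]
    simpa using Nor_abv_coeff_one_le w k
  | cons a m ih =>
    rw [Nor_msPoly_cons, Multiset.card_cons, Multiset.map_cons, Multiset.prod_cons]
    refine le_trans (S17.GF.Coeff_step w _ _ ih a k) (le_of_eq ?_)
    ring

theorem abv_coeff_msPoly_le_of_nonarch (w : AbsoluteValue Qb ℝ) (hw : IsNonarchimedean w)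
    (m : Multiset Qb) (k : ℕ) :
    w ((msPoly m).coeff k) ≤ (m.map fun x => max 1 (w x)).prod := by
  induction m using Multiset.induction_on generalizing k with
  | empty =>
    rw [Nor_msPoly_zero]
    simpa using Nor_abv_coeff_one_le w k
  | cons a m ih =>
    rw [Nor_msPoly_cons, Multiset.map_cons, Multiset.prod_cons]
    exact S17.GF.Coeff_step_nonarch w hw _ _ ih a k

theorem Nor_exists_rat_of_fixed {a : Qb} (h : ∀ σ : GQ, σ a = a) :
    ∃ q : ℚ, algebraMap ℚ Qb q = a := by
  have hG : IsGalois ℚ Qb := inferInstance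
  exact (InfiniteGalois.mem_range_algebraMap_iff_fixed a).2 h

theorem Nor_map_msPoly (σ : GQ) (m : Multiset Qb) :
    (msPoly m).map ((σ : Qb →ₐ[ℚ] Qb) : Qb →+* Qb) = msPoly (m.map σ) := by
  induction m using Multiset.induction_on with
  | empty => simp [Nor_msPoly_zero]
  | cons a m ih =>
    rw [Nor_msPoly_cons, Multiset.map_cons, Nor_msPoly_cons, Polynomial.map_mul, ih]
    simp

/-- The coefficients of the polynomial of a Galois stable multiset are rational. -/
theorem exists_rat_coeff_msPoly {m : Multiset Qb} (hm : ∀ σ : GQ, m.map σ = m) (k : ℕ) :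
    ∃ q : ℚ, algebraMap ℚ Qb q = (msPoly m).coeff k := by
  apply Nor_exists_rat_of_fixed
  intro σ
  have h := congrArg (fun P => P.coeff k) (Nor_map_msPoly σ m)
  simp only [coeff_map, hm σ] at h
  exact h

theorem Nor_log_prod (w : AbsoluteValue Qb ℝ) (m : Multiset Qb) :
    1 ≤ (m.map fun x => max 1 (w x)).prod ∧
      Real.log ((m.map fun x => max 1 (w x)).prod) =
        (m.map fun x => Real.log (max 1 (w x))).sum := by
  induction m using Multiset.induction_on with
  | empty => simp
  | cons a m ih =>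
    rw [Multiset.map_cons, Multiset.prod_cons, Multiset.map_cons, Multiset.sum_cons]
    have h1 : (1 : ℝ) ≤ max 1 (w a) := le_max_left _ _
    refine ⟨one_le_mul_of_one_le_of_one_le h1 ih.1, ?_⟩
    rw [Real.log_mul (by linarith) (by linarith [ih.1]), ih.2]

theorem Nor_finsum_multiset (A : AbsFam) (m : Multiset Qb) :
    (Function.support fun v => (m.map fun x => Real.log (max 1 (A.abv v x))).sum).Finite ∧
      ∑ᶠ v, (m.map fun x => Real.log (max 1 (A.abv v x))).sum = (m.map (hOne A)).sum := by
  induction m using Multiset.induction_on with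
  | empty => simp
  | cons a m ih =>
    simp only [Multiset.map_cons, Multiset.sum_cons]
    refine ⟨((finite_support_hOne A a).union ih.1).subset (Function.support_add _ _), ?_⟩
    rw [finsum_add_distrib (finite_support_hOne A a) ih.1, ih.2]
    rfl

/-- the constant `card m * log 2` at the archimedean place. -/
def Nor_cst (n : ℕ) : Plc → ℝ
  | none => n * Real.log 2
  | some _ => 0

theorem Nor_cst_off (n : ℕ) (v : Plc) (hv : v ≠ none) : Nor_cst n v = 0 := by
  match v, hv with
  | none, hv => exact absurd rfl hv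
  | some p, _ => rfl

theorem Nor_local_le (A : AbsFam) (m : Multiset Qb) (k : ℕ) (v : Plc) :
    Real.log (max 1 (A.abv v ((msPoly m).coeff k))) ≤
      Nor_cst (Multiset.card m) v + (m.map fun x => Real.log (max 1 (A.abv v x))).sum := by
  obtain ⟨hprod1, hlogprod⟩ := Nor_log_prod (A.abv v) m
  have hpos : (0 : ℝ) < max 1 (A.abv v ((msPoly m).coeff k)) :=
    lt_of_lt_of_le zero_lt_one (le_max_left _ _)
  rw [← hlogprod]
  match v, hprod1, hpos with
  | none, hprod1, hpos =>
    have h1 := abv_coeff_msPoly_le (A.abv none) m k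
    have h2 : (1 : ℝ) ≤ 2 ^ Multiset.card m := one_le_pow₀ one_le_two
    have h3 : max 1 (A.abv none ((msPoly m).coeff k)) ≤
        2 ^ Multiset.card m * (m.map fun x => max 1 (A.abv none x)).prod :=
      max_le (one_le_mul_of_one_le_of_one_le h2 hprod1) h1
    refine le_trans (Real.log_le_log hpos h3) (le_of_eq ?_)
    rw [Real.log_mul (by positivity) (by linarith), Real.log_pow]
    rfl
  | some p, hprod1, hpos =>
    have h1 := abv_coeff_msPoly_le_of_nonarch (A.abv (some p)) (A.nonarch p) m k
    refine le_trans (Real.log_le_log hpos (max_le hprod1 h1)) (le_of_eq ?_)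
    exact (zero_add _).symm

/-- Global bound for the coefficients. -/
theorem hOne_coeff_msPoly_le (A : AbsFam) (m : Multiset Qb) (k : ℕ) :
    hOne A ((msPoly m).coeff k) ≤ Multiset.card m * Real.log 2 + (m.map (hOne A)).sum := by
  have hcst : (Function.support (Nor_cst (Multiset.card m))).Finite := by
    refine (Set.finite_singleton (none : Plc)).subset ?_
    intro v hv
    by_contra h
    exact hv (Nor_cst_off _ v h)
  obtain ⟨hsupp, hsum⟩ := Nor_finsum_multiset A m
  have htot : ∑ᶠ v, (Nor_cst (Multiset.card m) v +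
      (m.map fun x => Real.log (max 1 (A.abv v x))).sum) =
      Multiset.card m * Real.log 2 + (m.map (hOne A)).sum := by
    rw [finsum_add_distrib hcst hsupp, hsum, finsum_eq_single _ none (Nor_cst_off _)]
    rfl
  rw [← htot]
  exact finsum_le_finsum' (finite_support_hOne A _)
    ((hcst.union hsupp).subset (Function.support_add _ _)) (fun v => Nor_local_le A m k v)

/-- Northcott for `ℚ`, for an arbitrary `AbsFam`. -/
theorem finite_rat_hOne_le (A : AbsFam) (B : ℝ) :
    {q : ℚ | hOne A (algebraMap ℚ Qb q) ≤ B}.Finite := by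
  refine (S17.GF.finite_rat_ht_le B).subset ?_
  intro q hq
  have hq' : hOne A (algebraMap ℚ Qb q) ≤ B := hq
  show ∑ᶠ v : Plc, Real.log (max 1 (S17.GF.av v (algebraMap ℚ Qb q))) ≤ B
  refine le_trans (le_of_eq ?_) hq'
  unfold hOne
  apply finsum_congr
  intro v
  rw [QAbs_av_eq, AbsFam.abv_rat]

theorem Nor_finite_poly (d : ℕ) {U : Set Qb} (h : U.Finite) :
    {f : Qb[X] | f.natDegree ≤ d ∧ ∀ i, f.coeff i ∈ U}.Finite := by
  let π : Qb[X] → Fin (d + 1) → Qb := fun f i => f.coeff i
  refine ((Set.Finite.pi fun _ => h).subset <| ?_).of_finite_image (?_ : Set.InjOn π _)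
  · exact Set.image_subset_iff.2 fun f hf i _ => hf.2 i
  · refine fun x hx y hy hxy => (ext_iff_natDegree_le hx.1 hy.1).2 fun i hi => ?_
    exact id congr_fun hxy ⟨i, Nat.lt_succ_of_le hi⟩

/-- **Northcott for Galois stable multisets.** -/
theorem finite_multiset_hOne_le (A : AbsFam) (d : ℕ) (B : ℝ) :
    {m : Multiset Qb | Multiset.card m ≤ d ∧ (∀ σ : GQ, m.map σ = m) ∧
      (m.map (hOne A)).sum ≤ B}.Finite := by
  have hU : ((algebraMap ℚ Qb) '' {q : ℚ | hOne A (algebraMap ℚ Qb q) ≤ d * Real.log 2 + B}).Finite :=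
    (finite_rat_hOne_le A _).image _
  refine Set.Finite.of_finite_image (f := msPoly) ((Nor_finite_poly d hU).subset ?_) ?_
  · rintro _ ⟨m, ⟨hcard, hgal, hB⟩, rfl⟩
    refine ⟨by rw [natDegree_msPoly]; exact hcard, fun i => ?_⟩
    obtain ⟨q, hq⟩ := exists_rat_coeff_msPoly hgal i
    refine ⟨q, ?_, hq⟩
    show hOne A (algebraMap ℚ Qb q) ≤ d * Real.log 2 + B
    rw [hq]
    refine le_trans (hOne_coeff_msPoly_le A m i) ?_
    have h1 : (Multiset.card m : ℝ) ≤ d := by exact_mod_cast hcard
    have h2 : 0 ≤ Real.log 2 := Real.log_nonneg one_le_two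
    nlinarith [mul_le_mul_of_nonneg_right h1 h2]
  · intro m _ m' _ h
    have h' : msPoly m = msPoly m' := h
    rw [← roots_msPoly m, h', roots_msPoly]

end Fermat.Agent.MW
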