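import Fermat.Agent.MW.Contracts
import Fermat.Agent.MW.Dict.Coord
import Fermat.Agent.MW.Hgt

/-!
# MW / NOR 2: lower bounds for `NL`, `tauL`, `tauP`; contract (GC3) `TauLowerStmt`.

`1 ∈ V n` has rational coordinates `q`; `1 = |pair q (X n Q)|_v ≤ kap (M n) * |q|_v * NL n v Q` for `Q ≠ ∞`.
-/

set_option autoImplicit false

namespace Fermat.Agent.MW

open AlgebraicCurve Fermat.Agent.Lib.RR Fermat.Agent.Lib.PlaceEval

variable {F : Type*} [Field F] [Algebra Qb F] [IsFF Qb F] {S : Setup F} (Φ : Coord S) (A : AbsFam)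

namespace Coord

theorem one_mem_V (S : Setup F) (n : ℕ) : (1 : F) ∈ S.V n := by
  rw [Setup.mem_V_iff]
  refine Or.inr ⟨fun Q _ => by rw [Place.ord_one], ?_⟩
  rw [Place.ord_one]
  omega

theorem Tau_kap_le_succ {K : Type*} [Field K] (a : AbsoluteValue K ℝ) (m : ℕ) :
    kap a m ≤ kap a (m + 1) := by
  unfold kap
  split_ifs
  · exact le_rfl
  · exact_mod_cast Nat.le_succ m

/-- rational coordinates of `1`. -/
theorem Tau_exists_one (n : ℕ) : ∃ q : Fin (Φ.M n) → ℚ, ∀ Q : Place Qb F, Q ≠ S.inf →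
    pair (toQb q) (Φ.X n Q) = 1 := by
  obtain ⟨q, hq⟩ := Φ.exists_rat_crd (one_mem_V S n) (fun σ => smul_one _)
  refine ⟨q, fun Q hQ => ?_⟩
  rw [Φ.pair_X n hQ, ← hq, Φ.lin_crd (one_mem_V S n), ev_one]

/-- `NL n v Q ≥ 1 / κ_v`. -/
theorem exists_NL_lower (n : ℕ) : ∃ c : AdC, ∀ (A : AbsFam) (v : Plc) (Q : Place Qb F), Q ≠ S.inf →
    1 ≤ c.c v * Φ.NL A n v Q := by
  obtain ⟨q, hq⟩ := Φ.Tau_exists_one n
  refine ⟨AdC.arch (Φ.M n + 1) (by omega) * AdC.prod Finset.univ (fun i => AdC.ofRat (q i)),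
    fun A v Q hQ => ?_⟩
  have h1 := abv_pair_le (A.abv v) (toQb q) (Φ.X n Q)
  rw [hq Q hQ, map_one, Fintype.card_fin, nrm_toQb] at h1
  have h2 : kap (A.abv v) (Φ.M n) ≤ (AdC.arch (Φ.M n + 1) (by omega)).c v :=
    (Tau_kap_le_succ _ _).trans (kap_le_arch A v _ _)
  have h3 : nrm (qabv v) q ≤ (AdC.prod Finset.univ (fun i => AdC.ofRat (q i))).c v :=
    nrm_le _ (AdC.pos _ v).le fun i =>
      (AdC.le_ofRat (q i) v).trans
        (AdC.le_prod Finset.univ (fun i => AdC.ofRat (q i)) (Finset.mem_univ i) v)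
  have h4 : 0 ≤ nrm (A.abv v) (Φ.X n Q) := nrm_nonneg _ _
  rw [AdC.mul_c]
  unfold NL
  calc (1 : ℝ) ≤ kap (A.abv v) (Φ.M n) * (nrm (qabv v) q * nrm (A.abv v) (Φ.X n Q)) := h1
    _ ≤ (AdC.arch (Φ.M n + 1) (by omega)).c v *
        ((AdC.prod Finset.univ (fun i => AdC.ofRat (q i))).c v * nrm (A.abv v) (Φ.X n Q)) :=
      mul_le_mul h2 (mul_le_mul_of_nonneg_right h3 h4)
        (mul_nonneg (nrm_nonneg _ _) h4) (AdC.pos _ v).le
    _ = _ := by ring

theorem X_ne_zero (n : ℕ) {Q : Place Qb F} (hQ : Q ≠ S.inf) : Φ.X n Q ≠ 0 := by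
  obtain ⟨q, hq⟩ := Φ.Tau_exists_one n
  intro h0
  have h1 := hq Q hQ
  rw [h0] at h1
  simp [pair] at h1

theorem NL_pos (n : ℕ) (v : Plc) {Q : Place Qb F} (hQ : Q ≠ S.inf) : 0 < Φ.NL A n v Q := by
  exact nrm_pos _ (Φ.X_ne_zero n hQ)

theorem finite_NL_ne_one (n : ℕ) {Q : Place Qb F} (hQ : Q ≠ S.inf) :
    {v | Φ.NL A n v Q ≠ 1}.Finite := by
  exact finite_nrm_ne_one' A (Φ.X_ne_zero n hQ)

theorem finite_support_tauL {Q : Place Qb F} (hQ : Q ≠ S.inf) :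
    (Function.support fun v => Φ.tauL A v Q).Finite := by
  refine (Φ.finite_NL_ne_one A S.nref hQ).subset fun v hv hcon => hv ?_
  show Real.log (Φ.NL A S.nref v Q) / S.nref = 0
  rw [hcon, Real.log_one, zero_div]

/-- `τ_v(Q) ≥ - log κ_v`. -/
theorem exists_tauL_lower : ∃ c : AdC, ∀ (A : AbsFam) (v : Plc) (Q : Place Qb F), Q ≠ S.inf →
    - Real.log (c.c v) ≤ Φ.tauL A v Q := by
  obtain ⟨c, hc⟩ := Φ.exists_NL_lower S.nref
  refine ⟨c, fun A v Q hQ => ?_⟩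
  have h1 := hc A v Q hQ
  have hN := Φ.NL_pos A S.nref v hQ
  have h2 : 0 ≤ Real.log (c.c v) + Real.log (Φ.NL A S.nref v Q) := by
    rw [← Real.log_mul (c.pos v).ne' hN.ne']
    exact Real.log_nonneg h1
  have h3 : 0 ≤ Real.log (c.c v) := Real.log_nonneg (c.one_le v)
  have h4 : (1 : ℝ) ≤ S.nref := by
    have : 1 ≤ S.nref := by unfold Setup.nref; omega
    exact_mod_cast this
  unfold tauL
  rw [le_div_iff₀ (by linarith)]
  nlinarith

theorem exists_tauP_lower : ∃ C : ℝ, 0 ≤ C ∧ ∀ (A : AbsFam) (Q : Place Qb F), Q ≠ S.inf →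
    - C ≤ Φ.tauP A Q := by
  obtain ⟨c, hc⟩ := Φ.exists_tauL_lower
  refine ⟨c.tot, c.tot_nonneg, fun A Q hQ => ?_⟩
  have h1 := finsum_le_add_tot c (fun _ => 0) (fun v => Φ.tauL A v Q) (by simp)
    (Φ.finite_support_tauL A hQ) (fun v => by
      have := hc A v Q hQ
      linarith)
  rw [finsum_zero] at h1
  unfold tauP
  linarith

/-- the degree of an effective divisor is the sum of its coefficients. -/
theorem degR_eq_sum (Z : Divisor Qb F) : degR Z = Z.sum fun _ a => (a : ℝ) := by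
  unfold degR
  rw [Fermat.Agent.GAL.RED.degree_eq_sum, Finsupp.sum, Finsupp.sum]
  push_cast
  rfl

/-- A general comparison principle: if `f P ≤ g P` off `∞` then the same holds for the sums over an effective divisor
supported off `∞`. -/
theorem sum_le_sum_of_eff {e : ℕ} {Z : Divisor Qb F} (hZ : Eff S e Z) (f g : Place Qb F → ℝ)
    (h : ∀ P, P ≠ S.inf → f P ≤ g P) :
    (Z.sum fun P a => (a : ℝ) * f P) ≤ Z.sum fun P a => (a : ℝ) * g P := by
  unfold Finsupp.sum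
  refine Finset.sum_le_sum fun P hP => ?_
  have hP1 : P ≠ S.inf := by
    rintro rfl
    exact (Finsupp.mem_support_iff.1 hP) hZ.off
  have hP2 : (0 : ℝ) ≤ (Z P : ℝ) := by exact_mod_cast hZ.nonneg P
  exact mul_le_mul_of_nonneg_left (h P hP1) hP2

end Coord

/-- **(GC3)** -/
theorem tauLowerStmt : TauLowerStmt Φ A := by
  intro d
  obtain ⟨C, hC, h⟩ := Φ.exists_tauP_lower
  refine ⟨d * C, fun d' Z hd' hZ => ?_⟩
  have h1 := Coord.sum_le_sum_of_eff hZ (fun _ => -C) (fun P => Φ.tauP A P) (fun P hP => h A P hP)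
  have h2 : (Z.sum fun _ a => (a : ℝ) * (-C)) = (d' : ℝ) * (-C) := by
    rw [← Finsupp.sum_mul, ← Coord.degR_eq_sum, degR, hZ.deg]
    norm_cast
  rw [h2] at h1
  have h3 : (d' : ℝ) ≤ d := by exact_mod_cast hd'
  unfold Coord.tau
  nlinarith

end Fermat.Agent.MW
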