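import Fermat.Agent.MW.Nor.Abs
import Fermat.Agent.MW.Nor.Tau

/-!
# MW / NOR 3: contract (GC4) `NorthcottStmt`.

`u = φ nref i₀` a nonconstant coordinate function.  For `Q ≠ ∞`: `u(Q) = X nref Q i₀`, so
`max(1, |u(Q)|_v) ≤ κ_v NL nref v Q`, `hOne (u(Q)) ≤ tot κ + nref * tauP Q`.  For `Z` rational effective off `∞` of degree `≤ d` with
`τ(Z) ≤ B` the multiset `valMs u Z` of the values of `u` on `Z` is Galois stable, has `≤ d` elements and
`∑ hOne ≤ d tot κ + nref B`: finitely many multisets (`finite_multiset_hOne_le`).  `u` has finite fibres, so finitely many `Z`.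
-/

set_option autoImplicit false

noncomputable section

namespace Fermat.Agent.MW

open AlgebraicCurve Fermat.Agent.Lib.RR Fermat.Agent.Lib.PlaceEval

variable {F : Type*} [Field F] [Algebra Qb F] [IsFF Qb F] {S : Setup F} (Φ : Coord S) (A : AbsFam)

/-- The multiset of the values of `u` on the effective divisor `Z`. -/
def valMs (u : F) (Z : Divisor Qb F) : Multiset Qb :=
  ∑ Q ∈ Z.support, (Z Q).toNat • ({ev Q u} : Multiset Qb)

theorem card_valMs (u : F) {Z : Divisor Qb F} (hZ : 0 ≤ Z) :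
    ((Multiset.card (valMs u Z) : ℕ) : ℤ) = Divisor.degree Z := by
  sorry

theorem sum_map_valMs (u : F) {Z : Divisor Qb F} (hZ : 0 ≤ Z) (f : Qb → ℝ) :
    ((valMs u Z).map f).sum = Z.sum fun Q a => (a : ℝ) * f (ev Q u) := by
  sorry

theorem mem_valMs (u : F) {Z : Divisor Qb F} (hZ : 0 ≤ Z) {Q : Place Qb F} (hQ : Q ∈ Z.support) :
    ev Q u ∈ valMs u Z := by
  sorry

/-- Galois stability. -/
theorem map_valMs (S : Setup F) {u : F} (hu : ∀ σ : GQ, S.ρ σ • u = u) {Z : Divisor Qb F}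
    (hZ : ∀ σ : GQ, S.ρ σ • Z = Z) (σ : GQ) : (valMs u Z).map σ = valMs u Z := by
  sorry

/-- A nonconstant function has finite fibres. -/
theorem finite_fibre {u : F} (hu : ∀ c : Qb, u ≠ algebraMap Qb F c) (c : Qb) :
    {Q : Place Qb F | 0 ≤ Q.ord u ∧ ev Q u = c}.Finite := by
  sorry

/-- There is a nonconstant coordinate function (`dim V nref = 2 g + 4 ≥ 2`). -/
theorem Coord.exists_nonconst : ∃ i : Fin (Φ.M S.nref), ∀ c : Qb,
    Φ.φ S.nref i ≠ algebraMap Qb F c := by
  by_contra hcon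
  push Not at hcon
  have hle : S.V S.nref ≤ Submodule.span Qb {(1 : F)} := by
    rw [← Φ.span S.nref, Submodule.span_le]
    rintro _ ⟨i, rfl⟩
    obtain ⟨c, hc⟩ := hcon i
    rw [hc, Algebra.algebraMap_eq_smul_one]
    exact Submodule.smul_mem _ _ (Submodule.mem_span_singleton_self 1)
  have h1 := Submodule.finrank_mono hle
  rw [finrank_span_singleton (one_ne_zero : (1 : F) ≠ 0)] at h1
  have h2 := S.finrank_V S.nref (by unfold Setup.nref; omega)
  have h3 : (S.nref : ℤ) = 3 * S.g + 3 := by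
    unfold Setup.nref
    push_cast
    ring
  omega

/-- `hOne (u(Q)) ≤ C + nref * tauP Q`. -/
theorem Coord.exists_hOne_le (i : Fin (Φ.M S.nref)) : ∃ C : ℝ, 0 ≤ C ∧ ∀ (A : AbsFam)
    (Q : Place Qb F), Q ≠ S.inf → hOne A (ev Q (Φ.φ S.nref i)) ≤ C + S.nref * Φ.tauP A Q := by
  obtain ⟨c, hc⟩ := Φ.exists_NL_lower S.nref
  refine ⟨c.tot, c.tot_nonneg, fun A Q hQ => ?_⟩
  have hn : (0 : ℝ) < S.nref := by
    have : 0 < S.nref := by unfold Setup.nref; omega
    exact_mod_cast this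
  have hX : Φ.X S.nref Q i = ev Q (Φ.φ S.nref i) := by
    unfold Coord.X
    rw [if_neg hQ]
  have hsupp : (Function.support fun v => (S.nref : ℝ) * Φ.tauL A v Q).Finite :=
    (Φ.finite_support_tauL A hQ).subset (by
      intro v hv h0
      apply hv
      have h0' : Φ.tauL A v Q = 0 := h0
      show (S.nref : ℝ) * Φ.tauL A v Q = 0
      rw [h0', mul_zero])
  have key := finsum_le_add_tot c (fun v => Real.log (max 1 (A.abv v (ev Q (Φ.φ S.nref i)))))
    (fun v => (S.nref : ℝ) * Φ.tauL A v Q) (finite_support_hOne A _) hsupp (fun v => by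
      have hNL := Φ.NL_pos A S.nref v hQ
      have h1 : (S.nref : ℝ) * Φ.tauL A v Q = Real.log (Φ.NL A S.nref v Q) := by
        unfold Coord.tauL
        field_simp
      show Real.log (max 1 (A.abv v (ev Q (Φ.φ S.nref i)))) ≤
        (S.nref : ℝ) * Φ.tauL A v Q + Real.log (c.c v)
      rw [h1, ← Real.log_mul hNL.ne' (c.pos v).ne']
      apply Real.log_le_log (by positivity)
      apply max_le
      · rw [mul_comm]
        exact hc A v Q hQ
      · rw [← hX]
        calc A.abv v (Φ.X S.nref Q i) ≤ Φ.NL A S.nref v Q := le_nrm _ _ i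
          _ ≤ Φ.NL A S.nref v Q * c.c v := le_mul_of_one_le_right hNL.le (c.one_le v))
  rw [← mul_finsum] at key
  unfold hOne Coord.tauP
  linarith

/-- Effective divisors with bounded coefficients supported in a finite set. -/
theorem finite_divisors_of_support (T : Set (Place Qb F)) (hT : T.Finite) (d : ℕ) :
    {Z : Divisor Qb F | (↑Z.support : Set (Place Qb F)) ⊆ T ∧ ∀ Q, 0 ≤ Z Q ∧ Z Q ≤ d}.Finite := by
  sorry

/-- **(GC4)** -/
theorem northcottStmt : NorthcottStmt Φ A := by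
  classical
  intro d B
  obtain ⟨i₀, hi₀⟩ := Φ.exists_nonconst
  obtain ⟨C, hC0, hC⟩ := Φ.exists_hOne_le i₀
  obtain ⟨u, hu⟩ : ∃ u, u = Φ.φ S.nref i₀ := ⟨_, rfl⟩
  rw [← hu] at hi₀ hC
  have hufix : ∀ σ : GQ, S.ρ σ • u = u := by
    intro σ
    rw [hu]
    exact Φ.fixed S.nref i₀ σ
  have hu0 : u ≠ 0 := by
    intro h0
    exact hi₀ 0 (by rw [h0, map_zero])
  have huV : u ∈ S.V S.nref := by
    rw [← Φ.span S.nref, hu]
    exact Submodule.subset_span (Set.mem_range_self i₀)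
  have hord : ∀ Q, Q ≠ S.inf → 0 ≤ Q.ord u := by
    intro Q hQ
    rcases (S.mem_V_iff S.nref u).1 huV with h | h
    · exact absurd h hu0
    · exact h.1 Q hQ
  have hM := finite_multiset_hOne_le A d (C * d + S.nref * B)
  have hT : ∀ m : Multiset Qb, {Q : Place Qb F | 0 ≤ Q.ord u ∧ ev Q u ∈ m}.Finite := by
    intro m
    have h1 : {Q : Place Qb F | 0 ≤ Q.ord u ∧ ev Q u ∈ m} =
        ⋃ c ∈ m.toFinset, {Q : Place Qb F | 0 ≤ Q.ord u ∧ ev Q u = c} := by
      ext Q
      simp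
    rw [h1]
    exact Set.Finite.biUnion (Finset.finite_toSet _) (fun c _ => finite_fibre hi₀ c)
  refine (Set.Finite.biUnion hM (fun m _ => finite_divisors_of_support _ (hT m) d)).subset ?_
  rintro Z ⟨d', hd', hE, hB⟩
  have hdR : degR Z = d' := by
    unfold degR
    rw [hE.deg]
    simp
  have hd'R : (d' : ℝ) ≤ d := by exact_mod_cast hd'
  rw [Set.mem_iUnion₂]
  refine ⟨valMs u Z, ⟨?_, ?_, ?_⟩, ?_, ?_⟩
  · have h1 := card_valMs u hE.nonneg
    rw [hE.deg] at h1
    have h2 : Multiset.card (valMs u Z) = d' := by exact_mod_cast h1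
    omega
  · exact map_valMs S hufix hE.fixed
  · rw [sum_map_valMs u hE.nonneg]
    have h1 := Coord.sum_le_sum_of_eff hE (fun Q => hOne A (ev Q u))
      (fun Q => C + S.nref * Φ.tauP A Q) (fun P hP => hC A P hP)
    refine h1.trans ?_
    have h2 : (Z.sum fun P a => (a : ℝ) * (C + S.nref * Φ.tauP A P)) =
        C * degR Z + S.nref * Φ.tau A Z := by
      rw [Coord.degR_eq_sum, Coord.tau]
      unfold Finsupp.sum
      rw [Finset.mul_sum, Finset.mul_sum, ← Finset.sum_add_distrib]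
      exact Finset.sum_congr rfl fun P _ => by ring
    rw [h2, hdR]
    have h3 : C * (d' : ℝ) ≤ C * d := mul_le_mul_of_nonneg_left hd'R hC0
    have h4 : (S.nref : ℝ) * Φ.tau A Z ≤ S.nref * B :=
      mul_le_mul_of_nonneg_left hB (Nat.cast_nonneg _)
    linarith
  · intro Q hQ
    have hQ' : Q ≠ S.inf := by
      rintro rfl
      exact (Finsupp.mem_support_iff.1 hQ) hE.off
    exact ⟨hord Q hQ', mem_valMs u hE.nonneg hQ⟩
  · intro Q
    refine ⟨hE.nonneg Q, ?_⟩
    by_cases hQ : Q ∈ Z.support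
    · have h1 : ((Z Q : ℤ) : ℝ) ≤ ∑ P ∈ Z.support, ((Z P : ℤ) : ℝ) :=
        Finset.single_le_sum (f := fun P => ((Z P : ℤ) : ℝ))
          (fun P _ => by exact_mod_cast hE.nonneg P) hQ
      have h2 : degR Z = ∑ P ∈ Z.support, ((Z P : ℤ) : ℝ) := Coord.degR_eq_sum Z
      rw [← h2, hdR] at h1
      have h3 : ((Z Q : ℤ) : ℝ) ≤ ((d : ℤ) : ℝ) := by
        push_cast
        linarith
      exact_mod_cast h3
    · rw [Finsupp.notMem_support_iff.1 hQ]
      exact_mod_cast Nat.zero_le d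

end Fermat.Agent.MW
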